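/-
S37lib / C0 / ResAut  (helper7)

The coefficientwise action of a ring automorphism `τ` of the constant field `k` on the modular
function field `k(j(q^d) : d ∣ N) ⊆ k((q))`, as a group homomorphism
`resAut k N : RingAut k →* SemilinearAut k (modularFunctionFieldFullC k N)`
(the char-`ℓ` analogue of the Prelude's `arithmeticGalois`).  The Prelude then provides its action
on places, divisors and `Pic0 = JZeroC k N`.
-/
import Fermat.Prelude.Def_ModularCurve_ReductionModL
import Fermat.Prelude.Def_AlgebraicCurve_BaseChangeGalois

set_option autoImplicit false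

noncomputable section

namespace Fermat.Agent.S37lib.C0

open ModularCurve AlgebraicCurve HahnSeries IntermediateField

variable (k : Type*) [Field k] (N : ℕ) [NeZero N]

/-- `coeffMap τ` maps constants to constants -/
theorem coeffMap_algebraMap_field (τ : k →+* k) (c : k) :
    coeffMap τ (algebraMap k (LaurentSeries k) c) = algebraMap k (LaurentSeries k) (τ c) := by
  rw [algebraMap_laurentSeries_eq_single, algebraMap_laurentSeries_eq_single, coeffMap_single]

theorem coeffMap_inv_field (τ : k →+* k) (x : LaurentSeries k) :
    coeffMap τ x⁻¹ = (coeffMap τ x)⁻¹ := map_inv₀ (coeffMap τ) x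

variable {k N}

/-- the coefficientwise action of an endomorphism of `k` preserves the modular function field -/
theorem coeffMap_mem_fullC (τ : k →+* k) {x : LaurentSeries k}
    (hx : x ∈ modularFunctionFieldFullC k N) : coeffMap τ x ∈ modularFunctionFieldFullC k N := by
  have hx' : x ∈ Subfield.closure
      (Set.range (algebraMap k (LaurentSeries k)) ∪ divisorExpansionsC k N) := hx
  clear hx
  induction hx' using Subfield.closure_induction with
  | mem y hy =>
      rcases hy with ⟨a, rfl⟩ | ⟨d, hd0, hd, rfl⟩
      · rw [coeffMap_algebraMap_field]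
        exact (modularFunctionFieldFullC k N).algebraMap_mem _
      · have := hd0
        rw [coeffMap_qExpand, coeffMap_jqModC]
        exact jqModCd_mem_full k N hd
  | one => rw [map_one]; exact one_mem _
  | add x y _ _ hx hy => rw [map_add]; exact add_mem hx hy
  | neg x _ hx => rw [map_neg]; exact neg_mem hx
  | inv x _ hx => rw [coeffMap_inv_field]; exact inv_mem hx
  | mul x y _ _ hx hy => rw [map_mul]; exact mul_mem hx hy

variable (k N)

/-- the coefficientwise action of `τ ∈ Aut k` on the modular function field -/
def resRingAut (τ : k ≃+* k) :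
    ↥(modularFunctionFieldFullC k N) ≃+* ↥(modularFunctionFieldFullC k N) where
  toFun x := ⟨coeffMap (τ : k →+* k) (x : LaurentSeries k), coeffMap_mem_fullC _ x.2⟩
  invFun x := ⟨coeffMap (τ.symm : k →+* k) (x : LaurentSeries k), coeffMap_mem_fullC _ x.2⟩
  left_inv x := Subtype.ext <| by
    show coeffMap (τ.symm : k →+* k) (coeffMap (τ : k →+* k) (x : LaurentSeries k))
      = (x : LaurentSeries k)
    rw [coeffMap_coeffMap,
      coeffMap_congr (g := RingHom.id k) (RingHom.ext fun a => τ.symm_apply_apply a)
        (x : LaurentSeries k),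
      coeffMap_id]
  right_inv x := Subtype.ext <| by
    show coeffMap (τ : k →+* k) (coeffMap (τ.symm : k →+* k) (x : LaurentSeries k))
      = (x : LaurentSeries k)
    rw [coeffMap_coeffMap,
      coeffMap_congr (g := RingHom.id k) (RingHom.ext fun a => τ.apply_symm_apply a)
        (x : LaurentSeries k),
      coeffMap_id]
  map_mul' x y :=
    Subtype.ext (map_mul (coeffMap (τ : k →+* k)) (x : LaurentSeries k) (y : LaurentSeries k))
  map_add' x y :=
    Subtype.ext (map_add (coeffMap (τ : k →+* k)) (x : LaurentSeries k) (y : LaurentSeries k))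

@[simp]
theorem coe_resRingAut_apply (τ : k ≃+* k) (x : ↥(modularFunctionFieldFullC k N)) :
    (resRingAut k N τ x : LaurentSeries k) = coeffMap (τ : k →+* k) (x : LaurentSeries k) :=
  rfl

theorem resRingAut_algebraMap (τ : k ≃+* k) (a : k) :
    resRingAut k N τ (algebraMap k ↥(modularFunctionFieldFullC k N) a)
      = algebraMap k ↥(modularFunctionFieldFullC k N) (τ a) :=
  Subtype.ext (coeffMap_algebraMap_field k (τ : k →+* k) a)

/-- **the residual semilinear action**: `Aut k → SemilinearAut k (k(j(q^d) : d ∣ N))` -/
def resAut : RingAut k →* SemilinearAut k ↥(modularFunctionFieldFullC k N) where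
  toFun τ := ⟨(resRingAut k N τ, τ), fun a => resRingAut_algebraMap k N τ a⟩
  map_one' := by
    refine Subtype.ext (Prod.ext (RingEquiv.ext fun x => Subtype.ext ?_) rfl)
    show coeffMap (((1 : RingAut k) : k ≃+* k) : k →+* k) (x : LaurentSeries k)
      = (x : LaurentSeries k)
    rw [show (((1 : RingAut k) : k ≃+* k) : k →+* k) = RingHom.id k from RingHom.ext fun _ => rfl,
      coeffMap_id]
  map_mul' σ τ := by
    refine Subtype.ext (Prod.ext (RingEquiv.ext fun x => Subtype.ext ?_) rfl)
    show coeffMap (((σ * τ : RingAut k) : k ≃+* k) : k →+* k) (x : LaurentSeries k)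
      = coeffMap ((σ : k ≃+* k) : k →+* k) (coeffMap ((τ : k ≃+* k) : k →+* k)
          (x : LaurentSeries k))
    rw [coeffMap_coeffMap]
    exact coeffMap_congr (RingHom.ext fun _ => rfl) _

@[simp]
theorem toRingAut_resAut (τ : RingAut k) :
    SemilinearAut.toRingAut (resAut k N τ) = resRingAut k N τ := rfl

@[simp]
theorem baseAut_resAut (τ : RingAut k) : SemilinearAut.baseAut (resAut k N τ) = τ := rfl

theorem coe_resAut_smul (τ : RingAut k) (x : ↥(modularFunctionFieldFullC k N)) :
    ((resAut k N τ • x : ↥(modularFunctionFieldFullC k N)) : LaurentSeries k)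
      = coeffMap ((τ : k ≃+* k) : k →+* k) (x : LaurentSeries k) :=
  rfl

theorem coe_resAut_inv_smul (τ : RingAut k) (x : ↥(modularFunctionFieldFullC k N)) :
    (((resAut k N τ)⁻¹ • x : ↥(modularFunctionFieldFullC k N)) : LaurentSeries k)
      = coeffMap ((τ : k ≃+* k).symm : k →+* k) (x : LaurentSeries k) :=
  rfl

end Fermat.Agent.S37lib.C0
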