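/-
S37lib / C0 / Decomp  (helper7)

The decomposition group `D_A` of a valuation subring `A ⊆ Q̄`: its action on `A`, on the residue
field, and the compatibility of the coefficientwise actions on Laurent series with
`A ⊆ Q̄` and `A → k`.
-/
import Fermat.Agent.S37lib.C0.ResAut
import Fermat.Agent.S18lib.V.IntRing
import Mathlib.RingTheory.Valuation.RamificationGroup
import Fermat.Prelude.Def_EllipticCurve_FrobeniusTrace

set_option autoImplicit false

noncomputable section

namespace Fermat.Agent.S37lib.C0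

open ModularCurve AlgebraicCurve HahnSeries IntermediateField Fermat.Agent.S18lib

variable (A : ValuationSubring (AlgebraicClosure ℚ))

local notation "Qb" => AlgebraicClosure ℚ
local notation "kA" => IsLocalRing.ResidueField A
local notation "DA" => ValuationSubring.decompositionSubgroup ℚ A

/-- the restriction of `σ ∈ D_A` to `A` -/
def sigmaA (g : DA) : A ≃+* A := MulSemiringAction.toRingEquiv DA A g

/-- the automorphism of the residue field induced by `σ ∈ D_A` -/
def sigmaBar : DA →* RingAut kA := MulSemiringAction.toRingAut DA kA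

theorem coe_sigmaA (g : DA) (a : A) :
    ((sigmaA A g a : A) : Qb) = (g : Qb ≃ₐ[ℚ] Qb) (a : Qb) := rfl

theorem sigmaBar_apply (g : DA) (x : kA) : sigmaBar A g x = g • x := rfl

theorem residue_sigmaA (g : DA) (a : A) :
    IsLocalRing.residue A (sigmaA A g a) = sigmaBar A g (IsLocalRing.residue A a) :=
  IsLocalRing.ResidueField.residue_smul DA g a

/-- compatibility with `A ⊆ Q̄` -/
theorem coeffMap_subtype_sigmaA (g : DA) (y : LaurentSeries A) :
    coeffMap A.subtype (coeffMap ((sigmaA A g : A ≃+* A) : A →+* A) y) =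
      coeffMap (((g : Qb ≃ₐ[ℚ] Qb) : Qb ≃+* Qb) : Qb →+* Qb) (coeffMap A.subtype y) := by
  ext n
  simp only [coeffMap_coeff]
  rfl

/-- compatibility with the residue map -/
theorem coeffMap_residue_sigmaA (g : DA) (y : LaurentSeries A) :
    coeffMap (IsLocalRing.residue A) (coeffMap ((sigmaA A g : A ≃+* A) : A →+* A) y) =
      coeffMap ((sigmaBar A g : kA ≃+* kA) : kA →+* kA) (coeffMap (IsLocalRing.residue A) y) := by
  ext n
  simp only [coeffMap_coeff]
  exact residue_sigmaA A g (y.coeff n)

variable (N : ℕ) [NeZero N]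

/-- `σ ∈ D_A` preserves the ring of integral modular functions -/
theorem sigmaA_mem_IntRing (g : DA) {y : LaurentSeries A} (hy : y ∈ V.IntRing N A) :
    coeffMap ((sigmaA A g : A ≃+* A) : A →+* A) y ∈ V.IntRing N A := by
  refine ⟨?_, ?_⟩
  · show coeffMap A.subtype _ ∈ _
    rw [coeffMap_subtype_sigmaA]
    have h1 : coeffMap (((g : Qb ≃ₐ[ℚ] Qb) : Qb ≃+* Qb) : Qb →+* Qb) (coeffMap A.subtype y) =
        coeffMap (((g : Qb ≃ₐ[ℚ] Qb)) : Qb →+* Qb) (coeffMap A.subtype y) := rfl
    rw [h1]
    exact coeffMap_mem_laurentBaseChange (g : Qb ≃ₐ[ℚ] Qb) hy.1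
  · show coeffMap (IsLocalRing.residue A) _ ∈ _
    rw [coeffMap_residue_sigmaA]
    exact coeffMap_mem_fullC _ hy.2

/-- inertia acts trivially on the residue field -/
theorem sigmaBar_eq_one_of_mem_inertia {g : DA} (hg : g ∈ ValuationSubring.inertiaSubgroup ℚ A) :
    sigmaBar A g = 1 := hg

/-- a Frobenius element acts by `x ↦ x ^ ℓ` on the residue field -/
theorem sigmaBar_apply_of_isFrobeniusAt {σ : Qb ≃ₐ[ℚ] Qb} {ℓ : ℕ}
    (h : A.IsFrobeniusAt σ ℓ) (x : kA) :
    sigmaBar A ⟨σ, h.mem_decompositionSubgroup⟩ x = x ^ ℓ :=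
  h.smul_residue_eq x

end Fermat.Agent.S37lib.C0
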