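/-
S37lib / C0 / Equivariance  (helper7)

`D_A`-equivariance of the reduction map `reductionModL A N : JZero N →+ JZeroC k N`,
**assuming uniqueness of the place reduction**:
`reductionModL A N (σ • x) = resAut k N σ̄ • reductionModL A N x` for `σ ∈ D_A`.
Consequences in the shapes of `Glue.exists_specialization`: inertia acts trivially after reduction,
Frobenius elements act through the coefficientwise Frobenius of `k((q))`.
-/
import Fermat.Agent.S37lib.C0.Decomp
import Fermat.Agent.S18lib.Setup.Modular
import Fermat.Prelude.Def_FLTPrelim_Ramification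
import Fermat.Agent.S18lib.Gink.Residue

set_option autoImplicit false

noncomputable section

namespace Fermat.Agent.S37lib.C0

open ModularCurve AlgebraicCurve HahnSeries IntermediateField Fermat.Agent.S18lib

variable (A : ValuationSubring (AlgebraicClosure ℚ)) (N : ℕ) [NeZero N]

local notation "Qb" => AlgebraicClosure ℚ
local notation "kA" => IsLocalRing.ResidueField A
local notation "DA" => ValuationSubring.decompositionSubgroup ℚ A

/-- the char-0 semilinear automorphism of `FBar N` attached to `σ ∈ D_A` -/
def galAut (g : DA) : SemilinearAut Qb (FBar N) :=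
  arithmeticGalois (modularFunctionFieldFull N) (g : Qb ≃ₐ[ℚ] Qb)

/-- the char-`ℓ` semilinear automorphism of `FRes A N` attached to `σ ∈ D_A` -/
def resAutD (g : DA) : SemilinearAut kA (FRes A N) := resAut kA N (sigmaBar A g)

theorem coe_galAut_smul (g : DA) (x : FBar N) :
    ((galAut A N g • x : FBar N) : LaurentSeries Qb) =
      coeffMap (((g : Qb ≃ₐ[ℚ] Qb)) : Qb →+* Qb) (x : LaurentSeries Qb) := rfl

theorem coe_resAutD_smul (g : DA) (x : FRes A N) :
    ((resAutD A N g • x : FRes A N) : LaurentSeries kA) =
      coeffMap ((sigmaBar A g : kA ≃+* kA) : kA →+* kA) (x : LaurentSeries kA) := rfl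

/-- the conjugate of a place map by `σ ∈ D_A` -/
def conjReduction (g : DA)
    (r : Place Qb (FBar N) → Place kA (FRes A N)) : Place Qb (FBar N) → Place kA (FRes A N) :=
  fun P => (resAutD A N g)⁻¹ • r (galAut A N g • P)

/-- the conjugate of a place reduction by `σ ∈ D_A` is a place reduction -/
theorem isPlaceReduction_conj (g : DA) {r : Place Qb (FBar N) → Place kA (FRes A N)}
    (hr : IsPlaceReductionModL A N r) : IsPlaceReductionModL A N (conjReduction A N g r) := by
  set G := galAut A N g with hG
  set Gb := resAutD A N g with hGb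
  refine ⟨fun P => ?_, fun y hy hyk hne D hD Q => ?_⟩
  · show ((Gb⁻¹ • r (G • P)) : Place kA (FRes A N)).deg = P.deg
    rw [SemilinearAut.deg_smul, hr.1, SemilinearAut.deg_smul]
  · -- the transported integral function
    set y' : LaurentSeries A := coeffMap ((sigmaA A g : A ≃+* A) : A →+* A) y with hy'def
    have hmem := sigmaA_mem_IntRing A N g (y := y) ⟨hy, hyk⟩
    have hy' : coeffMap A.subtype y' ∈ modularFunctionFieldBar N := hmem.1
    have hyk' : coeffMap (IsLocalRing.residue A) y' ∈ modularFunctionFieldFullC kA N := hmem.2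
    have hL : (⟨coeffMap A.subtype y', hy'⟩ : FBar N) =
        G • (⟨coeffMap A.subtype y, hy⟩ : FBar N) :=
      Subtype.ext (coeffMap_subtype_sigmaA A g y)
    have hK : (⟨coeffMap (IsLocalRing.residue A) y', hyk'⟩ : FRes A N) =
        Gb • (⟨coeffMap (IsLocalRing.residue A) y, hyk⟩ : FRes A N) :=
      Subtype.ext (coeffMap_residue_sigmaA A g y)
    have hne' : coeffMap (IsLocalRing.residue A) y' ≠ 0 := by
      intro h0
      have h1 : Gb • (⟨coeffMap (IsLocalRing.residue A) y, hyk⟩ : FRes A N) = 0 := by
        rw [← hK]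
        exact Subtype.ext h0
      rw [smul_eq_zero_iff_eq] at h1
      exact hne (congrArg Subtype.val h1)
    have hD' : ∀ P', (G • D) P' = P'.ord (⟨coeffMap A.subtype y', hy'⟩ : FBar N) := by
      intro P'
      rw [SemilinearAut.divisor_smul_apply, hD, hL]
      have := SemilinearAut.ord_smul G (G⁻¹ • P') (⟨coeffMap A.subtype y, hy⟩ : FBar N)
      rw [smul_inv_smul] at this
      exact this.symm
    have key := hr.2 y' hy' hyk' hne' (G • D) hD' (Gb • Q)
    have hmap : Finsupp.mapDomain (conjReduction A N g r) D =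
        Gb⁻¹ • Finsupp.mapDomain r (G • D) := by
      rw [SemilinearAut.divisor_smul_def, SemilinearAut.divisor_smul_def,
        ← Finsupp.mapDomain_comp, ← Finsupp.mapDomain_comp]
      rfl
    rw [hmap, SemilinearAut.divisor_smul_apply, inv_inv, key, hK, SemilinearAut.ord_smul]

/-- uniqueness of the place reduction (to be supplied by block (B3)) -/
def PlaceReductionUnique : Prop :=
  ∀ r₁ r₂ : Place Qb (FBar N) → Place kA (FRes A N),
    IsPlaceReductionModL A N r₁ → IsPlaceReductionModL A N r₂ → r₁ = r₂

variable {A N}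

/-- equivariance of the place reduction -/
theorem placeReductionModL_smul (huniq : PlaceReductionUnique A N) (h : ReductionInputsModL A N)
    (g : DA) (P : Place Qb (FBar N)) :
    placeReductionModL h (galAut A N g • P) = resAutD A N g • placeReductionModL h P := by
  have hr := isPlaceReductionModL_placeReductionModL h
  have h1 := huniq _ _ (isPlaceReduction_conj A N g hr) hr
  have h2 : (resAutD A N g)⁻¹ • placeReductionModL h (galAut A N g • P) =
      placeReductionModL h P := congrFun h1 P
  exact inv_smul_eq_iff.mp h2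

/-- **`D_A`-equivariance of the reduction map**, given uniqueness of the place reduction. -/
theorem reductionModL_smul (huniq : PlaceReductionUnique A N) (g : DA) (x : JZero N) :
    reductionModL A N ((g : Qb ≃ₐ[ℚ] Qb) • x) = resAutD A N g • reductionModL A N x := by
  by_cases h : ReductionInputsModL A N
  · obtain ⟨D, rfl⟩ := Pic0.mk_surjective x
    have hsm : (g : Qb ≃ₐ[ℚ] Qb) • (Pic0.mk D : JZero N) =
        Pic0.mk (SemilinearAut.degZeroSMulHom (galAut A N g) D) := rfl
    rw [hsm, reductionModL_mk h, reductionModL_mk h, SemilinearAut.pic0_smul_mk]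
    refine congrArg Pic0.mk (Subtype.ext ?_)
    rw [coe_reductionDegZeroAlong, SemilinearAut.coe_degZeroSMulHom,
      SemilinearAut.coe_degZeroSMulHom, coe_reductionDegZeroAlong,
      SemilinearAut.divisor_smul_def, SemilinearAut.divisor_smul_def,
      ← Finsupp.mapDomain_comp, ← Finsupp.mapDomain_comp]
    congr 1
    funext P
    exact placeReductionModL_smul huniq h g P
  · rw [reductionModL_of_not h]
    simp

/-- inertia acts trivially after reduction (shape `hinert` of `Glue.exists_specialization`) -/
theorem reductionModL_inertia (huniq : PlaceReductionUnique A N)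
    (σ : Qb ≃ₐ[ℚ] Qb) (hσ : σ ∈ A.inertiaSubgroupIn ℚ) (x : JZero N) :
    reductionModL A N (σ • x) = reductionModL A N x := by
  obtain ⟨g, hg, rfl⟩ := hσ
  have h1 := reductionModL_smul huniq g x
  have h2 : resAutD A N g = 1 := by
    rw [resAutD, sigmaBar_eq_one_of_mem_inertia A hg, map_one]
  rw [h2, one_smul] at h1
  exact h1

/-! ### Frobenius -/

section Frobenius

variable (A N)
variable (ℓ : ℕ) [ExpChar (IsLocalRing.ResidueField A) ℓ] [PerfectRing (IsLocalRing.ResidueField A) ℓ]

/-- the coefficientwise Frobenius `Σ aₙ qⁿ ↦ Σ aₙ^ℓ qⁿ` of `FRes A N`, as a semilinear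
automorphism -/
def frobAut : SemilinearAut kA (FRes A N) := resAut kA N (frobeniusEquiv kA ℓ)

theorem coe_frobAut_smul (x : FRes A N) :
    ((frobAut A N ℓ • x : FRes A N) : LaurentSeries kA) =
      coeffMap (frobenius kA ℓ) (x : LaurentSeries kA) := by
  rw [frobAut, coe_resAut_smul]
  rfl

/-- the endomorphism of `JZeroC k N` induced by the coefficientwise Frobenius -/
def FrHom : JZeroC kA N →+ JZeroC kA N :=
  DistribSMul.toAddMonoidHom (JZeroC kA N) (frobAut A N ℓ)

theorem FrHom_apply (y : JZeroC kA N) : FrHom A N ℓ y = frobAut A N ℓ • y := rfl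

variable {A N ℓ}

theorem resAutD_eq_frobAut {σ : Qb ≃ₐ[ℚ] Qb} (hσ : A.IsFrobeniusAt σ ℓ) :
    resAutD A N ⟨σ, hσ.mem_decompositionSubgroup⟩ = frobAut A N ℓ := by
  have h1 : sigmaBar A ⟨σ, hσ.mem_decompositionSubgroup⟩ = frobeniusEquiv kA ℓ := by
    refine RingEquiv.ext fun x => ?_
    rw [sigmaBar_apply_of_isFrobeniusAt A hσ x, frobeniusEquiv_apply, frobenius_def]
  rw [resAutD, frobAut, h1]

/-- Frobenius elements act through the coefficientwise Frobenius after reduction
(shape `hfrob` of `Glue.exists_specialization`) -/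
theorem reductionModL_frobenius (huniq : PlaceReductionUnique A N)
    (σ : Qb ≃ₐ[ℚ] Qb) (hσ : A.IsFrobeniusAt σ ℓ) (x : JZero N) :
    reductionModL A N (σ • x) = FrHom A N ℓ (reductionModL A N x) := by
  have h1 := reductionModL_smul huniq ⟨σ, hσ.mem_decompositionSubgroup⟩ x
  rw [resAutD_eq_frobAut hσ] at h1
  exact h1

end Frobenius

/-! ### The concrete Frobenius at a prime `ℓ` below `A` -/

section Concrete

variable {ℓ : ℕ} [Fact ℓ.Prime]

theorem expChar_kRes (hA : A.LiesOverPrime ℓ) : ExpChar kA ℓ :=
  haveI := Gink.charP_residueField A (Fact.out : ℓ.Prime) hA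
  ExpChar.prime (Fact.out : ℓ.Prime)

theorem perfectRing_kRes (hA : A.LiesOverPrime ℓ) :
    haveI := expChar_kRes hA
    PerfectRing kA ℓ :=
  haveI := expChar_kRes hA
  haveI : IsAlgClosed kA := Gink.isAlgClosed_residueField A
  inferInstance

variable (A N) in
/-- the Frobenius endomorphism of `JZeroC k N` at a prime `ℓ` below `A` -/
def Fr (hA : A.LiesOverPrime ℓ) : JZeroC kA N →+ JZeroC kA N :=
  haveI := expChar_kRes hA
  haveI := perfectRing_kRes hA
  FrHom A N ℓ

theorem reductionModL_frobenius' (hA : A.LiesOverPrime ℓ) (huniq : PlaceReductionUnique A N)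
    (σ : Qb ≃ₐ[ℚ] Qb) (hσ : A.IsFrobeniusAt σ ℓ) (x : JZero N) :
    reductionModL A N (σ • x) = Fr A N hA (reductionModL A N x) := by
  have := expChar_kRes hA
  have := perfectRing_kRes hA
  exact reductionModL_frobenius huniq σ hσ x

end Concrete

end Fermat.Agent.S37lib.C0
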