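/-
S37lib / C0 / Wire  (helper7)

The `hinert` / `hfrob` clauses of `Glue.Inputs`, unconditionally (`ℓ ∤ N`, `A` over `ℓ`):
uniqueness of the place reduction is helper3's `B3.placeReduction_unique` fed with helper1's
`B3.principalGeneratedByIntegral_U`.  Also: small facts about the coefficientwise Frobenius
`frobAut` used by the Eichler–Shimura blocks (fixes `j̄`, acts as `c ↦ c ^ ℓ` on constants).
-/
import Fermat.Agent.S37lib.C0.Equivariance
import Fermat.Agent.S37lib.B3.Unique
import Fermat.Agent.S37lib.B3.PrincipalGen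

set_option autoImplicit false

noncomputable section

namespace Fermat.Agent.S37lib.C0

open ModularCurve AlgebraicCurve HahnSeries IntermediateField Fermat.Agent.S18lib

variable (N : ℕ) [NeZero N] {ℓ : ℕ} [Fact ℓ.Prime]
variable (A : ValuationSubring (AlgebraicClosure ℚ))

local notation "Qb" => AlgebraicClosure ℚ
local notation "kA" => IsLocalRing.ResidueField A

/-- uniqueness of the place reduction at level `N`, unconditionally -/
theorem placeReductionUnique (hℓN : ¬ ℓ ∣ N) (hA : A.LiesOverPrime ℓ) :
    PlaceReductionUnique A N := fun r₁ r₂ h₁ h₂ =>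
  B3.placeReduction_unique N A hℓN hA (B3.principalGeneratedByIntegral_U N A hℓN hA) r₁ r₂ h₁ h₂

/-- **`D_A`-equivariance of the reduction map** -/
theorem reductionModL_smul_U (hℓN : ¬ ℓ ∣ N) (hA : A.LiesOverPrime ℓ)
    (g : ValuationSubring.decompositionSubgroup ℚ A) (x : JZero N) :
    reductionModL A N ((g : Qb ≃ₐ[ℚ] Qb) • x) = resAutD A N g • reductionModL A N x :=
  reductionModL_smul (placeReductionUnique N A hℓN hA) g x

/-- **`hinert` of `Glue.Inputs`**: inertia acts trivially after reduction -/
theorem hinert (hℓN : ¬ ℓ ∣ N) (hA : A.LiesOverPrime ℓ) :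
    ∀ σ ∈ A.inertiaSubgroupIn ℚ, ∀ x : JZero N,
      reductionModL A N (σ • x) = reductionModL A N x :=
  fun σ hσ x => reductionModL_inertia (placeReductionUnique N A hℓN hA) σ hσ x

/-- **`hfrob` of `Glue.Inputs`**: Frobenius elements act through `Fr` after reduction -/
theorem hfrob (hℓN : ¬ ℓ ∣ N) (hA : A.LiesOverPrime ℓ) :
    ∀ σ : Qb ≃ₐ[ℚ] Qb, A.IsFrobeniusAt σ ℓ → ∀ x : JZero N,
      reductionModL A N (σ • x) = Fr A N hA (reductionModL A N x) :=
  fun σ hσ x => reductionModL_frobenius' hA (placeReductionUnique N A hℓN hA) σ hσ x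

/-! ### facts about `frobAut` -/

section Frob

variable [ExpChar (IsLocalRing.ResidueField A) ℓ] [PerfectRing (IsLocalRing.ResidueField A) ℓ]

/-- `Fr` in `DistribMulAction` form (the shape used in `ES/Pic0`) -/
theorem FrHom_eq :
    FrHom A N ℓ = DistribMulAction.toAddMonoidHom (JZeroC kA N) (frobAut A N ℓ) := rfl

theorem baseAut_frobAut :
    SemilinearAut.baseAut (frobAut A N ℓ) = frobeniusEquiv kA ℓ := rfl

/-- the coefficientwise Frobenius acts as `c ↦ c ^ ℓ` on constants -/
theorem frobAut_smul_algebraMap (c : kA) :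
    frobAut A N ℓ • algebraMap kA (FRes A N) c = algebraMap kA (FRes A N) (c ^ ℓ) := by
  rw [SemilinearAut.smul_algebraMap, baseAut_frobAut, frobeniusEquiv_apply, frobenius_def]

/-- the coefficientwise Frobenius fixes `j̄` (its coefficients lie in the prime field) -/
theorem frobAut_smul_jK : frobAut A N ℓ • Gink.jK A N = Gink.jK A N := by
  refine Subtype.ext ?_
  rw [coe_frobAut_smul, Gink.coe_jK, coeffMap_jqModC]

/-- the coefficientwise Frobenius fixes every polynomial in `j̄` with prime-field coefficients;
in general it acts on `k[j̄]` through the coefficients -/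
theorem frobAut_smul_sub_const (c : kA) :
    frobAut A N ℓ • (Gink.jK A N - algebraMap kA (FRes A N) c) =
      Gink.jK A N - algebraMap kA (FRes A N) (c ^ ℓ) := by
  rw [smul_sub, frobAut_smul_jK, frobAut_smul_algebraMap]

end Frob

/-- `Fr A N hA` in `DistribMulAction` form -/
theorem Fr_eq (hA : A.LiesOverPrime ℓ) :
    Fr A N hA =
      (haveI := expChar_kRes hA
       haveI := perfectRing_kRes hA
       DistribMulAction.toAddMonoidHom (JZeroC kA N) (frobAut A N ℓ)) := rfl

theorem Fr_apply (hA : A.LiesOverPrime ℓ) (y : JZeroC kA N) :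
    Fr A N hA y =
      (haveI := expChar_kRes hA
       haveI := perfectRing_kRes hA
       frobAut A N ℓ • y) := rfl

end Fermat.Agent.S37lib.C0
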